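/-
Cluster L, leaf OLD of S43 (`S43.BadQ.Stmt_Old`): common definitions for the sub-leaves
TORS-REL, CHAR-M, STAR, WIRE  (helper37; architecture: helper75, "OLD (S43) architecture v1").

"Polynomials in the good Hecke operators" are elements of the free algebra `ℤ⟨X_ℓ⟩` on the good
primes `ℓ` (no commutativity of the Hecke operators is needed anywhere).  Such a polynomial `P` is
evaluated

* `evalB M S A P` on `Hom(Γ₀(M), A)` through the Betti operators `Betti.TB`,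
* `evalJ M S P`   on `J₀(M)(ℚ̄)` through the Hecke correspondences `heckeOperatorBar`,
* `evalt M S t P` in `ℤ` through a system of integers `t_ℓ`.

No `sorry` here: definitions and `Prop`-valued statements only.
-/
import Fermat.Prelude.Def_ModularCurve_HeckeModule
import Fermat.Agent.Betti.Defs

set_option autoImplicit false

noncomputable section

namespace Fermat.Agent.L.LiftEig

open AlgebraicCurve ModularCurve CongruenceSubgroup Fermat.Agent.Betti
open scoped MatrixGroups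

/-- The good primes for the level `M` away from the set `S`. -/
abbrev GoodPrime (M : ℕ) (S : Set ℕ) : Type := {ℓ : ℕ // ℓ.Prime ∧ ¬ ℓ ∣ M ∧ ℓ ∉ S}

/-- Noncommutative polynomials in variables `X_ℓ`, `ℓ` a good prime. -/
abbrev HPoly (M : ℕ) (S : Set ℕ) : Type := FreeAlgebra ℤ (GoodPrime M S)

/-- The variable `X_ℓ`. -/
def HPoly.X {M : ℕ} {S : Set ℕ} (ℓ : GoodPrime M S) : HPoly M S := FreeAlgebra.ι ℤ ℓ

/-- Evaluation at the Betti operators `T_ℓ^B` on `Hom(Γ₀(M), A)`. -/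
def evalB (M : ℕ) (S : Set ℕ) (A : Type*) [AddCommGroup A] :
    HPoly M S →ₐ[ℤ] Module.End ℤ (Additive (Gamma0 M) →+ A) :=
  FreeAlgebra.lift ℤ (fun ℓ : GoodPrime M S => (TB M A ℓ.2.1 ℓ.2.2.1).toIntLinearMap)

/-- Evaluation at the Hecke operators `T_ℓ` of `J₀(M)`. -/
def evalJ (M : ℕ) [NeZero M] (S : Set ℕ) : HPoly M S →ₐ[ℤ] Module.End ℤ (JZero M) :=
  FreeAlgebra.lift ℤ (fun ℓ : GoodPrime M S => heckeOperatorBar M ⟨ℓ.1, ℓ.2.1⟩)

/-- Evaluation at a system of integers. -/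
def evalt (M : ℕ) (S : Set ℕ) (t : ℕ → ℤ) : HPoly M S →ₐ[ℤ] ℤ :=
  FreeAlgebra.lift ℤ (fun ℓ : GoodPrime M S => t ℓ.1)

@[simp]
theorem evalB_X (M : ℕ) (S : Set ℕ) (A : Type*) [AddCommGroup A] (ℓ : GoodPrime M S)
    (φ : Additive (Gamma0 M) →+ A) :
    evalB M S A (HPoly.X ℓ) φ = TB M A ℓ.2.1 ℓ.2.2.1 φ := by
  simp [evalB, HPoly.X]

@[simp]
theorem evalJ_X (M : ℕ) [NeZero M] (S : Set ℕ) (ℓ : GoodPrime M S) (x : JZero M) :
    evalJ M S (HPoly.X ℓ) x = heckeOperatorBar M ⟨ℓ.1, ℓ.2.1⟩ x := by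
  simp [evalJ, HPoly.X]

@[simp]
theorem evalt_X (M : ℕ) (S : Set ℕ) (t : ℕ → ℤ) (ℓ : GoodPrime M S) :
    evalt M S t (HPoly.X ℓ) = t ℓ.1 := by
  simp [evalt, HPoly.X]

/-- `P` is a relation of the good Hecke operators on the Betti lattice
`ParZ = Hom_par(Γ₀(M), ℤ)`. -/
def IsBettiRel (M : ℕ) (S : Set ℕ) (P : HPoly M S) : Prop :=
  ∀ ψ : Additive (Gamma0 M) →+ ℤ, Period.IsParabolicHom (Gamma0 M) ψ → evalB M S ℤ P ψ = 0

/-- **TORS-REL.**  A relation of the good Hecke operators on the Betti lattice kills all torsion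
points of `J₀(M)`. -/
def Stmt_TorsRel : Prop :=
  ∀ (M : ℕ) [NeZero M] (S : Set ℕ) (P : HPoly M S), IsBettiRel M S P →
    ∀ h : ℕ, h ≠ 0 → ∀ x : JZero M, h • x = 0 → evalJ M S P x = 0

/-- **CHAR-M.**  A system of integers `t_ℓ` which satisfies, modulo `p`, all the relations of the
good Hecke operators on the Betti lattice of level `M` is the reduction of the system of
eigenvalues of a normalised eigenform of level `M`. -/
def Stmt_CharM : Prop :=
  ∀ (p : ℕ), p.Prime → ∀ (M : ℕ) [NeZero M] (S : Finset ℕ) (t : ℕ → ℤ),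
    (∀ P : HPoly M (↑S : Set ℕ), IsBettiRel M ↑S P → (p : ℤ) ∣ evalt M ↑S t P) →
    ∃ (g : CuspForm (Gamma0 M) 2) (𝔪 : Ideal (integralClosure ℤ ℂ)),
      g.IsNormalizedEigenform ∧ 𝔪.IsMaximal ∧ (p : integralClosure ℤ ℂ) ∈ 𝔪 ∧
      ∀ ℓ : ℕ, ℓ.Prime → ℓ ∉ S → ¬ ℓ ∣ M →
        ∃ a : integralClosure ℤ ℂ, (a : ℂ) = ModularFormClass.qCoeff g ℓ ∧
          a - ((t ℓ : ℤ) : integralClosure ℤ ℂ) ∈ 𝔪

end Fermat.Agent.L.LiftEig
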