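/-
Cluster L, leaf OLD of S43, sub-leaf TORS-REL (helper37).

`stmt_TorsRel : Stmt_TorsRel`: a polynomial in the good Hecke operators which vanishes on the
Betti lattice `Hom_par(Γ₀(M), ℤ)` kills every torsion point of `J₀(M)(ℚ̄)`.

Proof.  Let `h ≠ 0`.  The torsion dictionary `e : J₀(M)[h] ≃ Hom_pe(Γ₀(M), ℤ/h)` (`GTor`, TORc)
intertwines `T_ℓ` and `T_ℓ^B` (HK + the uniqueness clause of TORc), hence `P(T)` and `P(T^B)`
(induction on `P`).  Every `φ ∈ Hom_pe(Γ₀(M), ℤ/h)` is the reduction of a parabolic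
`ψ : Γ₀(M) → ℤ` (TORSLIFT), and `T^B` is natural in the coefficient group, so
`P(T^B) φ = (P(T^B) ψ mod h) = 0`.
-/
import Fermat.Agent.L.LiftEig.Defs
import Fermat.Agent.GTor.H81_Uncond
import Fermat.Agent.GTor.H44_HK
import Fermat.Agent.GTor.H77_TorsLift

set_option autoImplicit false

noncomputable section

namespace Fermat.Agent.L.LiftEig.H37

open AlgebraicCurve ModularCurve CongruenceSubgroup Fermat.Agent.Betti Fermat.Agent.GTor
  Fermat.Agent.GTor.H81 Fermat.Agent.L.LiftEig
open scoped MatrixGroups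

/-! ## Naturality of the Betti operators in the coefficient group -/

section Naturality

variable {M : ℕ} {S : Set ℕ} {A B : Type*} [AddCommGroup A] [AddCommGroup B]

theorem TB_comp (f : A →+ B) {p : ℕ} (hp : p.Prime) (hpN : ¬ p ∣ M)
    (φ : Additive (Gamma0 M) →+ A) :
    TB M B hp hpN (f.comp φ) = f.comp (TB M A hp hpN φ) := by
  refine AddMonoidHom.ext fun γ => ?_
  obtain ⟨γ, rfl⟩ := Additive.ofMul.surjective γ
  rw [TB_apply_apply, AddMonoidHom.comp_apply, TB_apply_apply, map_sum]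
  rfl

theorem evalB_add_apply (a b : HPoly M S) (φ : Additive (Gamma0 M) →+ A) :
    evalB M S A (a + b) φ = evalB M S A a φ + evalB M S A b φ := by
  rw [map_add, LinearMap.add_apply]

theorem evalB_mul_apply (a b : HPoly M S) (φ : Additive (Gamma0 M) →+ A) :
    evalB M S A (a * b) φ = evalB M S A a (evalB M S A b φ) := by
  rw [map_mul, Module.End.mul_apply]

theorem evalB_algebraMap_apply (r : ℤ) (φ : Additive (Gamma0 M) →+ A) :
    evalB M S A (algebraMap ℤ (HPoly M S) r) φ = r • φ := by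
  rw [AlgHom.commutes, Module.algebraMap_end_apply]

theorem evalB_ι_apply (ℓ : GoodPrime M S) (φ : Additive (Gamma0 M) →+ A) :
    evalB M S A (FreeAlgebra.ι ℤ ℓ) φ = TB M A ℓ.2.1 ℓ.2.2.1 φ :=
  evalB_X M S A ℓ φ

theorem evalB_comp (f : A →+ B) (P : HPoly M S) (φ : Additive (Gamma0 M) →+ A) :
    evalB M S B P (f.comp φ) = f.comp (evalB M S A P φ) := by
  induction P using FreeAlgebra.induction generalizing φ with
  | grade0 r =>
    rw [AlgHom.commutes, AlgHom.commutes, Module.algebraMap_end_apply,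
      Module.algebraMap_end_apply]
    refine AddMonoidHom.ext fun γ => ?_
    simp
  | grade1 ℓ =>
    have h1 := evalB_X M S B ℓ (f.comp φ)
    have h2 := evalB_X M S A ℓ φ
    rw [HPoly.X] at h1 h2
    rw [h1, h2, TB_comp]
  | mul a b ha hb =>
    rw [map_mul, map_mul, Module.End.mul_apply, Module.End.mul_apply, hb, ha]
  | add a b ha hb =>
    rw [map_add, map_add, LinearMap.add_apply, LinearMap.add_apply, ha, hb]
    refine AddMonoidHom.ext fun γ => ?_
    simp

end Naturality

/-! ## The torsion dictionary intertwines `P(T)` and `P(T^B)` -/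

section Dictionary

variable {M : ℕ} [NeZero M] {S : Set ℕ} {h : ℕ} {ι : AlgebraicClosure ℚ →+* ℂ}

/-- The restriction of an endomorphism of `J₀(M)` to the `h`-torsion. -/
def restrictTor (T : Module.End ℤ (JZero M)) (x : Jtor M h) : Jtor M h :=
  ⟨T (x : JZero M), by
    rw [Pic0.mem_torsion, ← map_zsmul, Pic0.mem_torsion.1 x.2, map_zero]⟩

@[simp]
theorem coe_restrictTor (T : Module.End ℤ (JZero M)) (x : Jtor M h) :
    ((restrictTor T x : Jtor M h) : JZero M) = T (x : JZero M) := rfl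

theorem restrictTor_add (T₁ T₂ : Module.End ℤ (JZero M)) (x : Jtor M h) :
    restrictTor (T₁ + T₂) x = restrictTor T₁ x + restrictTor T₂ x :=
  Subtype.ext rfl

theorem restrictTor_mul (T₁ T₂ : Module.End ℤ (JZero M)) (x : Jtor M h) :
    restrictTor (T₁ * T₂) x = restrictTor T₁ (restrictTor T₂ x) :=
  Subtype.ext rfl

theorem restrictTor_algebraMap (r : ℤ) (x : Jtor M h) :
    restrictTor (algebraMap ℤ (Module.End ℤ (JZero M)) r) x = r • x :=
  Subtype.ext (by rw [coe_restrictTor, Module.algebraMap_end_apply]; rfl)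

/-- The torsion dictionary, with values in all homomorphisms `Γ₀(M) → ℤ/h`. -/
def dict (E : TorIso M h ι) : Jtor M h →+ (Additive (Gamma0 M) →+ ZMod h) :=
  (homPE (Gamma0 M) (ZMod h)).subtype.comp E.e.toAddMonoidHom

theorem dict_apply (E : TorIso M h ι) (x : Jtor M h) :
    dict E x = ((E.e x : homPE (Gamma0 M) (ZMod h)) : Additive (Gamma0 M) →+ ZMod h) := rfl

theorem dict_eq_zero (E : TorIso M h ι) (x : Jtor M h) (hx : dict E x = 0) : x = 0 := by
  have h1 : E.e x = 0 := Subtype.ext hx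
  exact (AddEquiv.map_eq_zero_iff E.e).1 h1

theorem dict_hecke (hHK : Stmt_HK M h) (E : TorIso M h ι) (ℓ : GoodPrime M S) (x : Jtor M h) :
    dict E (restrictTor (heckeOperatorBar M ⟨ℓ.1, ℓ.2.1⟩) x) =
      TB M (ZMod h) ℓ.2.1 ℓ.2.2.1 (dict E x) :=
  (E.uniq (restrictTor (heckeOperatorBar M ⟨ℓ.1, ℓ.2.1⟩) x) _
    (hHK ι ℓ.1 ℓ.2.1 ℓ.2.2.1 (x : JZero M) _ (E.spec x))).symm

theorem dict_eval (hHK : Stmt_HK M h) (E : TorIso M h ι) (P : HPoly M S) (x : Jtor M h) :
    dict E (restrictTor (evalJ M S P) x) = evalB M S (ZMod h) P (dict E x) := by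
  induction P using FreeAlgebra.induction generalizing x with
  | grade0 r =>
    have e1 : evalJ M S (algebraMap ℤ (HPoly M S) r) =
        algebraMap ℤ (Module.End ℤ (JZero M)) r := AlgHom.commutes _ r
    have e2 : evalB M S (ZMod h) (algebraMap ℤ (HPoly M S) r) (dict E x) = r • dict E x :=
      evalB_algebraMap_apply r (dict E x)
    calc dict E (restrictTor (evalJ M S (algebraMap ℤ (HPoly M S) r)) x)
        = dict E (r • x) :=
          congrArg (dict E)
            ((congrArg (fun T => restrictTor T x) e1).trans (restrictTor_algebraMap r x))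
      _ = r • dict E x := AddMonoidHom.map_zsmul (dict E) r x
      _ = evalB M S (ZMod h) (algebraMap ℤ (HPoly M S) r) (dict E x) := e2.symm
  | grade1 ℓ =>
    have e1 : evalJ M S (FreeAlgebra.ι ℤ ℓ) = heckeOperatorBar M ⟨ℓ.1, ℓ.2.1⟩ :=
      FreeAlgebra.lift_ι_apply _ _
    have e2 : evalB M S (ZMod h) (FreeAlgebra.ι ℤ ℓ) (dict E x) =
        TB M (ZMod h) ℓ.2.1 ℓ.2.2.1 (dict E x) := evalB_ι_apply ℓ (dict E x)
    calc dict E (restrictTor (evalJ M S (FreeAlgebra.ι ℤ ℓ)) x)
        = dict E (restrictTor (heckeOperatorBar M ⟨ℓ.1, ℓ.2.1⟩) x) :=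
          congrArg (dict E) (congrArg (fun T => restrictTor T x) e1)
      _ = TB M (ZMod h) ℓ.2.1 ℓ.2.2.1 (dict E x) := dict_hecke hHK E ℓ x
      _ = evalB M S (ZMod h) (FreeAlgebra.ι ℤ ℓ) (dict E x) := e2.symm
  | mul a b ha hb =>
    have e1 : evalJ M S (a * b) = evalJ M S a * evalJ M S b := map_mul _ a b
    have e2 : evalB M S (ZMod h) (a * b) (dict E x) =
        evalB M S (ZMod h) a (evalB M S (ZMod h) b (dict E x)) :=
      evalB_mul_apply a b (dict E x)
    calc dict E (restrictTor (evalJ M S (a * b)) x)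
        = dict E (restrictTor (evalJ M S a) (restrictTor (evalJ M S b) x)) :=
          congrArg (dict E)
            ((congrArg (fun T => restrictTor T x) e1).trans (restrictTor_mul _ _ x))
      _ = evalB M S (ZMod h) a (dict E (restrictTor (evalJ M S b) x)) := ha _
      _ = evalB M S (ZMod h) a (evalB M S (ZMod h) b (dict E x)) :=
          congrArg (evalB M S (ZMod h) a) (hb x)
      _ = evalB M S (ZMod h) (a * b) (dict E x) := e2.symm
  | add a b ha hb =>
    have e1 : evalJ M S (a + b) = evalJ M S a + evalJ M S b := map_add _ a b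
    have e2 : evalB M S (ZMod h) (a + b) (dict E x) =
        evalB M S (ZMod h) a (dict E x) + evalB M S (ZMod h) b (dict E x) :=
      evalB_add_apply a b (dict E x)
    calc dict E (restrictTor (evalJ M S (a + b)) x)
        = dict E (restrictTor (evalJ M S a) x + restrictTor (evalJ M S b) x) :=
          congrArg (dict E)
            ((congrArg (fun T => restrictTor T x) e1).trans (restrictTor_add _ _ x))
      _ = dict E (restrictTor (evalJ M S a) x) + dict E (restrictTor (evalJ M S b) x) :=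
          AddMonoidHom.map_add (dict E) _ _
      _ = evalB M S (ZMod h) a (dict E x) + evalB M S (ZMod h) b (dict E x) :=
          congrArg₂ (· + ·) (ha x) (hb x)
      _ = evalB M S (ZMod h) (a + b) (dict E x) := e2.symm

end Dictionary

/-! ## TORS-REL -/

/-- **TORS-REL**, from the torsion dictionary. -/
theorem torsRel_of (M : ℕ) [NeZero M] (S : Set ℕ) (h : ℕ) (hh : h ≠ 0)
    (hTOR : Stmt_TORc M h) (hHK : Stmt_HK M h) (hL : Stmt_torsLift M)
    (P : HPoly M S) (hP : IsBettiRel M S P) (x : JZero M) (hx : h • x = 0) :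
    evalJ M S P x = 0 := by
  have halg : Algebra.IsAlgebraic ℚ (AlgebraicClosure ℚ) := AlgebraicClosure.isAlgebraic ℚ
  obtain ⟨E⟩ := nonempty_torIso hTOR
    ((IsAlgClosed.lift : AlgebraicClosure ℚ →ₐ[ℚ] ℂ) : AlgebraicClosure ℚ →+* ℂ)
  have hx' : x ∈ Jtor M h := by
    rw [Pic0.mem_torsion, natCast_zsmul]
    exact hx
  set x' : Jtor M h := ⟨x, hx'⟩ with hx'def
  obtain ⟨ψ, hψ, hψφ⟩ := hL h hh _ (E.e x').2
  have hφ : dict E x' = (Int.castAddHom (ZMod h)).comp ψ := by
    refine AddMonoidHom.ext fun γ => ?_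
    rw [dict_apply, hψφ γ]
    rfl
  have h1 : dict E (restrictTor (evalJ M S P) x') = 0 := by
    rw [dict_eval (S := S) hHK E P x', hφ, evalB_comp, hP ψ hψ]
    exact AddMonoidHom.comp_zero _
  have h3 : restrictTor (evalJ M S P) x' = 0 := dict_eq_zero E _ h1
  exact congrArg (fun y : Jtor M h => (y : JZero M)) h3

/-- **TORS-REL**, unconditionally. -/
theorem stmt_TorsRel : Stmt_TorsRel := fun M _ S P hP h hh x hx =>
  torsRel_of M S h hh (stmt_TORc_uncond M h hh) (Fermat.Agent.GTor.H44.stmt_HK M h)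
    (Fermat.Agent.GTor.H77.stmt_torsLift M) P hP x hx

end Fermat.Agent.L.LiftEig.H37
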