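import Mathlib
import Fermat.Agent.S49.Lifting

/-!
# S43 OLD, leaf CHAR-M (helper46), abstract part

Pure commutative algebra.  `R` a commutative ring, integral over `ℤ`, acting faithfully on a
finite dimensional complex vector space `V`; `T i ∈ R` a family and `t i ∈ ℤ`.  If every integral
polynomial relation `P(T) = 0` gives `p ∣ P(t)`, there is a simultaneous eigenvector `v ∈ V` of
`R` whose eigencharacter `χ` satisfies `χ(T i) ≡ t i` modulo a maximal ideal over `p` of the ring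
of algebraic integers.

(The kernel of `P ↦ P(t) mod p` is a maximal ideal of `ℤ[X]` containing the kernel of
`P ↦ P(T)`; lying over for the integral map `ℤ[X] → R`; then `S49.exists_eigenvector_character`
and `S49.exists_maximal_over`.)
-/

set_option autoImplicit false

namespace Fermat.Agent.L.LiftEig.H46

open Module

/-- **CHAR, abstract form.** -/
theorem char_of_relations {R : Type*} [CommRing R] {V : Type*} [AddCommGroup V] [Module ℂ V]
    [FiniteDimensional ℂ V] (hint : ∀ r : R, IsIntegral ℤ r)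
    (φ : R →+* Module.End ℂ V) (hφ : Function.Injective φ)
    {p : ℕ} (hp : p.Prime) {ι : Type*} (T : ι → R) (t : ι → ℤ)
    (H : ∀ P : MvPolynomial ι ℤ, MvPolynomial.aeval T P = 0 →
      (p : ℤ) ∣ MvPolynomial.eval t P) :
    ∃ (χ : R →+* ℂ) (v : V) (𝔪 : Ideal (integralClosure ℤ ℂ)),
      v ≠ 0 ∧ (∀ r, φ r v = χ r • v) ∧ 𝔪.IsMaximal ∧
      ((p : ℕ) : integralClosure ℤ ℂ) ∈ 𝔪 ∧
      ∀ i, ∃ α : integralClosure ℤ ℂ, (α : ℂ) = χ (T i) ∧
        α - ((t i : ℤ) : integralClosure ℤ ℂ) ∈ 𝔪 := by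
  classical
  haveI : Fact p.Prime := ⟨hp⟩
  -- the two evaluations
  let evT : MvPolynomial ι ℤ →+* R := (MvPolynomial.aeval T : MvPolynomial ι ℤ →ₐ[ℤ] R)
  let evt : MvPolynomial ι ℤ →+* ZMod p :=
    (Int.castRingHom (ZMod p)).comp (MvPolynomial.eval t)
  have hevt_surj : Function.Surjective evt := by
    intro x
    obtain ⟨n, rfl⟩ := ZMod.intCast_surjective x
    refine ⟨MvPolynomial.C n, ?_⟩
    show (Int.castRingHom (ZMod p)) (MvPolynomial.eval t (MvPolynomial.C n)) = _
    rw [MvPolynomial.eval_C]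
    rfl
  haveI hmax₀ : (RingHom.ker evt).IsMaximal := RingHom.ker_isMaximal_of_surjective evt hevt_surj
  have hker : RingHom.ker evT ≤ RingHom.ker evt := by
    intro P hP
    rw [RingHom.mem_ker] at hP ⊢
    have h1 := H P hP
    show (Int.castRingHom (ZMod p)) (MvPolynomial.eval t P) = 0
    rw [eq_intCast]
    exact (ZMod.intCast_zmod_eq_zero_iff_dvd _ p).mpr h1
  -- lying over
  letI : Algebra (MvPolynomial ι ℤ) R := evT.toAlgebra
  have halg : algebraMap (MvPolynomial ι ℤ) R = evT := rfl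
  haveI : IsScalarTower ℤ (MvPolynomial ι ℤ) R :=
    IsScalarTower.of_algebraMap_eq fun n => by
      rw [halg]
      simp
  haveI : Algebra.IsIntegral (MvPolynomial ι ℤ) R := ⟨fun r => (hint r).tower_top⟩
  obtain ⟨𝔫, h𝔫max, h𝔫⟩ := Ideal.exists_ideal_over_maximal_of_isIntegral (S := R)
    (RingHom.ker evt) (by rw [halg]; exact hker)
  have hmem : ∀ P : MvPolynomial ι ℤ, evt P = 0 → evT P ∈ 𝔫 := by
    intro P hP
    have h1 : P ∈ Ideal.comap (algebraMap (MvPolynomial ι ℤ) R) 𝔫 := by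
      rw [h𝔫]
      exact hP
    exact h1
  haveI h𝔫prime : 𝔫.IsPrime := h𝔫max.isPrime
  obtain ⟨χ, v, hv0, hv, hkerχ⟩ := Fermat.Agent.S49.exists_eigenvector_character φ hφ 𝔫
  obtain ⟨χ', 𝔪, hχ', h𝔪max, h𝔪⟩ := Fermat.Agent.S49.exists_maximal_over hint χ 𝔫 hkerχ
  refine ⟨χ, v, 𝔪, hv0, hv, h𝔪max, ?_, fun i => ?_⟩
  · have h1 : evT (MvPolynomial.C (p : ℤ)) ∈ 𝔫 := by
      apply hmem
      show (Int.castRingHom (ZMod p)) (MvPolynomial.eval t (MvPolynomial.C (p : ℤ))) = 0
      rw [MvPolynomial.eval_C, eq_intCast, Int.cast_natCast, ZMod.natCast_self]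
    have h2 : evT (MvPolynomial.C (p : ℤ)) = ((p : ℕ) : R) := by
      show MvPolynomial.aeval T (MvPolynomial.C (p : ℤ)) = _
      rw [MvPolynomial.aeval_C]
      simp
    rw [h2] at h1
    have h3 := h𝔪 _ h1
    rwa [map_natCast] at h3
  · refine ⟨χ' (T i), hχ' _, ?_⟩
    have h1 : evT (MvPolynomial.X i - MvPolynomial.C (t i)) ∈ 𝔫 := by
      apply hmem
      show (Int.castRingHom (ZMod p))
        (MvPolynomial.eval t (MvPolynomial.X i - MvPolynomial.C (t i))) = 0
      rw [map_sub, MvPolynomial.eval_X, MvPolynomial.eval_C, sub_self, map_zero]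
    have h2 : evT (MvPolynomial.X i - MvPolynomial.C (t i)) = T i - ((t i : ℤ) : R) := by
      show MvPolynomial.aeval T (MvPolynomial.X i - MvPolynomial.C (t i)) = _
      rw [map_sub, MvPolynomial.aeval_X, MvPolynomial.aeval_C]
      simp
    rw [h2] at h1
    have h3 := h𝔪 _ h1
    rwa [map_sub, map_intCast] at h3

end Fermat.Agent.L.LiftEig.H46
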