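import Fermat.Agent.L.LiftEig.H46_CharAbs
import Fermat.Agent.S41.H20_NewLift

/-!
# S43 OLD, leaf CHAR-M (helper46)

`M ≥ 1`, `p` a prime, `ℓ i` a family of primes not dividing `M`, `t i ∈ ℤ`.  If every integral
polynomial `P` in the `T_{ℓ i}` which vanishes on the Betti lattice `ParZ M = Hom_par(Γ₀(M), ℤ)`
has `p ∣ P(t)`, there are a normalised eigenform `g` of weight `2` and level `M` and a maximal
ideal `𝔪 ∋ p` of the ring of algebraic integers with `a_{ℓ i}(g) ≡ t i mod 𝔪` for all `i`.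

* `charM_hecke` : the relations are taken in the Hecke algebra `heckeAlgebra M 2 ∅`;
* `charM`       : the relations are taken on `ParZ M` (via `Betti.H76.heckeRho`);
* `charM_pt`    : the same, the relation tested on every element of `ParZ M`.
-/

set_option autoImplicit false

open scoped MatrixGroups
open CongruenceSubgroup CuspForm ModularFormClass

namespace Fermat.Agent.L.LiftEig.H46

open Fermat.Agent.Betti Fermat.Agent.Betti.H76

variable {p : ℕ} (M : ℕ) [NeZero M] {ι : Type} (ℓ : ι → ℕ) (hℓ : ∀ i, (ℓ i).Prime)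
  (hℓM : ∀ i, ¬ ℓ i ∣ M) (t : ι → ℤ)

/-- The family `T_{ℓ i}` in the Hecke algebra. -/
noncomputable def heckeFam : ι → heckeAlgebra M 2 ∅ :=
  fun i => heckeAlgebra.T (hℓ i) (hℓM i) (Set.notMem_empty (ℓ i))

/-- The Hecke algebra is integral over `ℤ`. -/
theorem heckeAlgebra_isIntegral (r : heckeAlgebra M 2 ∅) : IsIntegral ℤ r := by
  haveI : Module.Finite ℤ (ParZ M) := Fermat.Agent.S41.H20.parZ_finite M
  have h1 : IsIntegral ℤ ((heckeRho M ∅).toIntAlgHom r) := Algebra.IsIntegral.isIntegral _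
  exact (isIntegral_algHom_iff (heckeRho M ∅).toIntAlgHom (heckeRho_injective M ∅)).mp h1

/-- **CHAR-M**, relations in the Hecke algebra. -/
theorem charM_hecke (hp : p.Prime)
    (H : ∀ P : MvPolynomial ι ℤ, MvPolynomial.aeval (heckeFam M ℓ hℓ hℓM) P = 0 →
      (p : ℤ) ∣ MvPolynomial.eval t P) :
    ∃ (g : CuspForm (Gamma0 M) 2) (𝔪 : Ideal (integralClosure ℤ ℂ)),
      g.IsNormalizedEigenform ∧ 𝔪.IsMaximal ∧ ((p : ℕ) : integralClosure ℤ ℂ) ∈ 𝔪 ∧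
      ∀ i, ∃ a : integralClosure ℤ ℂ, (a : ℂ) = qCoeff g (ℓ i) ∧
        a - ((t i : ℤ) : integralClosure ℤ ℂ) ∈ 𝔪 := by
  haveI hfd : FiniteDimensional ℂ (CuspForm (Gamma0 M) 2) :=
    Fermat.Agent.R.H99.finiteDimensional_cuspForm M
  let φ : heckeAlgebra M 2 ∅ →+* Module.End ℂ (CuspForm (Gamma0 M) 2) :=
    (heckeAlgebra M 2 ∅).val.toRingHom
  have hφ : Function.Injective φ := Subtype.val_injective
  obtain ⟨χ, v, 𝔪, hv0, hv, hmax, hp𝔪, hcong⟩ :=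
    char_of_relations (heckeAlgebra_isIntegral M) φ hφ hp (heckeFam M ℓ hℓ hℓM) t H
  have hv' : ∀ T : heckeAlgebra M 2 ∅,
      (T : Module.End ℂ (CuspForm (Gamma0 M) 2)) v = χ T • v := fun T => hv T
  obtain ⟨hb1, hg⟩ := Fermat.Agent.R.H99.isNormalizedEigenform_of_eigenvector χ v hv0 hv'
  refine ⟨(qCoeff ⇑v 1)⁻¹ • v, 𝔪, hg, hmax, hp𝔪, fun i => ?_⟩
  obtain ⟨α, hα, hα𝔪⟩ := hcong i
  refine ⟨α, ?_, hα𝔪⟩
  rw [hα, Fermat.Agent.S41.H20.qCoeff_normalized_eigenvector χ v hv' hb1 (hℓ i),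
    Fermat.Agent.S49.eigenvalueAt_of_not_dvd χ (hℓ i) (hℓM i)]
  rfl

/-- **CHAR-M**, relations on the Betti lattice. -/
theorem charM (hp : p.Prime)
    (H : ∀ P : MvPolynomial ι ℤ,
      heckeRho M ∅ (MvPolynomial.aeval (heckeFam M ℓ hℓ hℓM) P) = 0 →
      (p : ℤ) ∣ MvPolynomial.eval t P) :
    ∃ (g : CuspForm (Gamma0 M) 2) (𝔪 : Ideal (integralClosure ℤ ℂ)),
      g.IsNormalizedEigenform ∧ 𝔪.IsMaximal ∧ ((p : ℕ) : integralClosure ℤ ℂ) ∈ 𝔪 ∧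
      ∀ i, ∃ a : integralClosure ℤ ℂ, (a : ℂ) = qCoeff g (ℓ i) ∧
        a - ((t i : ℤ) : integralClosure ℤ ℂ) ∈ 𝔪 :=
  charM_hecke M ℓ hℓ hℓM t hp fun P hP => H P (by rw [hP, map_zero])

/-- **CHAR-M**, the relation tested on every element of the Betti lattice. -/
theorem charM_pt (hp : p.Prime)
    (H : ∀ P : MvPolynomial ι ℤ,
      (∀ c : ParZ M, heckeRho M ∅ (MvPolynomial.aeval (heckeFam M ℓ hℓ hℓM) P) c = 0) →
      (p : ℤ) ∣ MvPolynomial.eval t P) :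
    ∃ (g : CuspForm (Gamma0 M) 2) (𝔪 : Ideal (integralClosure ℤ ℂ)),
      g.IsNormalizedEigenform ∧ 𝔪.IsMaximal ∧ ((p : ℕ) : integralClosure ℤ ℂ) ∈ 𝔪 ∧
      ∀ i, ∃ a : integralClosure ℤ ℂ, (a : ℂ) = qCoeff g (ℓ i) ∧
        a - ((t i : ℤ) : integralClosure ℤ ℂ) ∈ 𝔪 :=
  charM M ℓ hℓ hℓM t hp fun P hP => H P fun c => by rw [hP, LinearMap.zero_apply]

end Fermat.Agent.L.LiftEig.H46
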