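import Fermat.Agent.L.LiftEig.Defs
import Fermat.Agent.L.LiftEig.H46_CharM

/-!
# S43 OLD, leaf CHAR-M (helper46): `Stmt_CharM`

`stmt_CharM : Fermat.Agent.L.LiftEig.Stmt_CharM` (the statement of `L/LiftEig/Defs.lean`).

Bridge between the noncommutative polynomials `HPoly` evaluated at the Betti operators and the
commutative polynomials evaluated in the Hecke algebra:
* `toMv`        : `HPoly M S → ℤ[X_ℓ]`, surjective;
* `evalt_eq`    : `evalt t P = (toMv P)(t)`;
* `evalB_eq_heckeRho` : on the Betti lattice `evalB P` is the action of `(toMv P)(T)`.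
-/

set_option autoImplicit false

open scoped MatrixGroups
open CongruenceSubgroup CuspForm ModularFormClass

noncomputable section

namespace Fermat.Agent.L.LiftEig.H46

open Fermat.Agent.Betti Fermat.Agent.Betti.H76 Fermat.Agent.L.LiftEig ModularCurve

variable (M : ℕ) (S : Set ℕ)

/-- The commutative polynomial of a noncommutative one. -/
def toMv : HPoly M S →ₐ[ℤ] MvPolynomial (GoodPrime M S) ℤ :=
  FreeAlgebra.lift ℤ (fun ℓ : GoodPrime M S => (MvPolynomial.X ℓ : MvPolynomial (GoodPrime M S) ℤ))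

@[simp] theorem toMv_ι (ℓ : GoodPrime M S) : toMv M S (FreeAlgebra.ι ℤ ℓ) = MvPolynomial.X ℓ := by
  simp [toMv]

theorem toMv_surjective : Function.Surjective (toMv M S) := by
  intro P
  induction P using MvPolynomial.induction_on with
  | C a =>
    refine ⟨algebraMap ℤ _ a, ?_⟩
    rw [AlgHom.commutes]
    rfl
  | add p q hp hq =>
    obtain ⟨a, rfl⟩ := hp
    obtain ⟨b, rfl⟩ := hq
    exact ⟨a + b, map_add _ _ _⟩
  | mul_X p i hp =>
    obtain ⟨a, rfl⟩ := hp
    exact ⟨a * FreeAlgebra.ι ℤ i, by rw [map_mul, toMv_ι]⟩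

theorem evalt_eq (t : ℕ → ℤ) (P : HPoly M S) :
    evalt M S t P = MvPolynomial.eval (fun ℓ : GoodPrime M S => t ℓ.1) (toMv M S P) := by
  have h : evalt M S t =
      (MvPolynomial.aeval (fun ℓ : GoodPrime M S => t ℓ.1)).comp (toMv M S) := by
    apply FreeAlgebra.hom_ext
    funext ℓ
    simp [evalt, toMv]
  rw [h, AlgHom.comp_apply, MvPolynomial.aeval_def]
  rfl

variable [NeZero M]

/-- The family of the good Hecke operators in the Hecke algebra. -/
def goodFam : GoodPrime M S → heckeAlgebra M 2 ∅ :=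
  heckeFam M (fun ℓ : GoodPrime M S => ℓ.1) (fun ℓ => ℓ.2.1) (fun ℓ => ℓ.2.2.1)

/-- On the Betti lattice `evalB P` is the action of `(toMv P)(T)`. -/
theorem evalB_eq_heckeRho (P : HPoly M S) :
    ∀ ψ : ParZ M, evalB M S ℤ P (ψ : Additive (Gamma0 M) →+ ℤ) =
      ((heckeRho M ∅ (MvPolynomial.aeval (goodFam M S) (toMv M S P)) ψ : ParZ M) :
        Additive (Gamma0 M) →+ ℤ) := by
  induction P using FreeAlgebra.induction with
  | grade0 r =>
    intro ψ
    rw [AlgHom.commutes, AlgHom.commutes, AlgHom.commutes]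
    have h1 : heckeRho M ∅ (algebraMap ℤ (heckeAlgebra M 2 ∅) r) =
        algebraMap ℤ (Module.End ℤ (ParZ M)) r := by
      rw [eq_intCast, eq_intCast, map_intCast]
    rw [h1, Module.algebraMap_end_apply, Module.algebraMap_end_apply]
    rfl
  | grade1 ℓ =>
    intro ψ
    rw [toMv_ι, MvPolynomial.aeval_X]
    have h1 := evalB_X M S ℤ ℓ (ψ : Additive (Gamma0 M) →+ ℤ)
    have h2 : evalB M S ℤ (FreeAlgebra.ι ℤ ℓ) = evalB M S ℤ (HPoly.X ℓ) := rfl
    rw [h2, h1]
    exact (heckeRho_T M ∅ ℓ.2.1 ℓ.2.2.1 (Set.notMem_empty ℓ.1) ψ).symm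
  | mul a b ha hb =>
    intro ψ
    rw [map_mul, map_mul, map_mul, map_mul, Module.End.mul_apply, Module.End.mul_apply, hb ψ,
      ha]
  | add a b ha hb =>
    intro ψ
    rw [map_add, map_add, map_add, map_add, LinearMap.add_apply, LinearMap.add_apply, ha ψ,
      hb ψ]
    rfl

/-- **CHAR-M.** -/
theorem stmt_CharM : Stmt_CharM := by
  intro p hp M _ S t H
  obtain ⟨g, 𝔪, hg, hmax, hp𝔪, hcong⟩ := charM_hecke (p := p) M
    (fun ℓ : GoodPrime M (↑S : Set ℕ) => ℓ.1) (fun ℓ => ℓ.2.1) (fun ℓ => ℓ.2.2.1)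
    (fun ℓ => t ℓ.1) hp (fun P hP => by
      obtain ⟨P', rfl⟩ := toMv_surjective M (↑S : Set ℕ) P
      rw [← evalt_eq]
      refine H P' fun ψ hψ => ?_
      have h1 := evalB_eq_heckeRho M (↑S : Set ℕ) P' ⟨ψ, hψ⟩
      have h2 : MvPolynomial.aeval (goodFam M (↑S : Set ℕ)) (toMv M (↑S : Set ℕ) P') = 0 := hP
      rw [h2, map_zero] at h1
      exact h1)
  refine ⟨g, 𝔪, hg, hmax, hp𝔪, fun ℓ hℓ hℓS hℓM => ?_⟩
  exact hcong ⟨ℓ, hℓ, hℓM, hℓS⟩

end Fermat.Agent.L.LiftEig.H46
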